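import Fermat.Agent.MAZ.Geo.HopfMod
import Fermat.Agent.MAZ.Abs.Jac

/-!
# MAZ / Hopf / Main : the fields `fin`, `hopfX`, `hopfS` of `JacHyp` for `J = J₀(N)`, `actJ N` (Geo/Basic.lean)

* `hopfX_jac` : `exists_isHopfOrder_of_section` with `X = V × ZMod (r^k)`, `C = ZMod (r^k)`, `π = snd`, `s (v, m) = v + m.val • ε z0`,
  `d m m' = ((m.val + m'.val) / r^k) • ε (r^k • z0)`  (`(m + m').val + r^k * ((m.val + m'.val) / r^k) = m.val + m'.val`: `ZMod.val_add`, `Nat.mod_add_div`).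
  `hsσ`: `s (σ (v, m)) = σ v + m.val • ε (σ z0 - z0) + m.val • ε z0 = σ v + m.val • σ (ε z0)`.  `hinj`: same `m`, cancel.
  `Finite V` from `fin_jac`.
* `hopfS_jac` : `C = PUnit` (trivial group), `π = 0`, `s = Subtype.val`, `d = 0`.  `Finite S` from `fin_jac`.
* `fin_jac` : as `FLAT.finite_tors` (`S27.card_torsion`).
-/

set_option autoImplicit false
set_option synthInstance.maxHeartbeats 400000

noncomputable section

open AlgebraicCurve ModularCurve

namespace Fermat.Agent.MAZ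

open Fermat.Agent.FLAT (Qb GQ Zl IsHopfOrder)

section AbsSection

variable {J : Type} [AddCommGroup J] {actJ : GQ →* AddMonoid.End J} {n : ℕ} [NeZero n]
  {ε : AddMonoid.End J}

/-- the section `(v, m) ↦ v + m.val • ε z0` of the extension attached to `z0`. -/
def secX (ε : AddMonoid.End J) (n : ℕ) (z0 : J) (x : epsTors n ε × ZMod n) : J :=
  (x.1 : J) + x.2.val • ε z0

/-- the carry. -/
def carryX (ε : AddMonoid.End J) (n : ℕ) (z0 : J) (m m' : ZMod n) : J :=
  ((m.val + m'.val) / n) • ε (n • z0)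

theorem secX_act (comm : ∀ (σ : GQ) (x : J), ε (actJ σ x) = actJ σ (ε x))
    (idem : ∀ x : J, n • x = 0 → ε (ε x) = ε x) {z0 : J}
    (hz0 : ∀ σ : GQ, actJ σ (n • z0) = n • z0) (σ : GQ) (x : epsTors n ε × ZMod n) :
    secX ε n z0 (extAct n (epsAct comm) (epsCoc idem hz0) nsmul_epsTors
      (epsCoc_mul comm idem hz0) σ x) = actJ σ (secX ε n z0 x) := by
  rw [extAct_apply]
  change (actJ σ (x.1 : J) + x.2.val • ε (actJ σ z0 - z0)) + x.2.val • ε z0
    = actJ σ ((x.1 : J) + x.2.val • ε z0)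
  rw [map_add, map_nsmul, ← comm, add_assoc, ← nsmul_add, ← map_add, sub_add_cancel]

theorem secX_inj (z0 : J) (x x' : epsTors n ε × ZMod n) (h1 : x.2 = x'.2)
    (h2 : secX ε n z0 x = secX ε n z0 x') : x = x' := by
  unfold secX at h2
  rw [h1] at h2
  exact Prod.ext (Subtype.ext (add_right_cancel h2)) h1

theorem secX_add (z0 : J) (x x' : epsTors n ε × ZMod n) :
    secX ε n z0 x + secX ε n z0 x' = secX ε n z0 (x + x') + carryX ε n z0 x.2 x'.2 := by
  change ((x.1 : J) + x.2.val • ε z0) + ((x'.1 : J) + x'.2.val • ε z0) =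
    ((x.1 : J) + (x'.1 : J)) + (x.2 + x'.2).val • ε z0
      + ((x.2.val + x'.2.val) / n) • ε (n • z0)
  have h : (x.2.val + x'.2.val) • ε z0 =
      (x.2 + x'.2).val • ε z0 + ((x.2.val + x'.2.val) / n) • ε (n • z0) := by
    rw [ZMod.val_add, map_nsmul, ← mul_nsmul', ← add_nsmul, mul_comm, Nat.mod_add_div]
  rw [add_nsmul] at h
  rw [add_assoc _ ((x.2 + x'.2).val • ε z0), ← h]
  abel

end AbsSection

theorem fin_jac (N : ℕ) [NeZero N] (n : ℕ) (hn : n ≠ 0) : {x : JZero N | n • x = 0}.Finite := by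
  have : S27.IsFF Qb (modularFunctionFieldBar N) :=
    ⟨⟨S24.jF N, GAL.HeckeInputs.isFiniteParam_jF N⟩⟩
  have h := S27.card_torsion Qb (modularFunctionFieldBar N) n (Nat.pos_of_ne_zero hn)
  have hfin : Finite (Pic0.torsion Qb (modularFunctionFieldBar N) n) := by
    apply Nat.finite_of_card_ne_zero
    rw [h]
    exact pow_ne_zero _ hn
  have hset : {x : JZero N | n • x = 0} =
      ((Pic0.torsion Qb (modularFunctionFieldBar N) n : AddSubgroup _) : Set (JZero N)) := by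
    ext x
    rw [Set.mem_ofPred_eq, SetLike.mem_coe, Pic0.mem_torsion, natCast_zsmul]
  rw [hset]
  exact Set.toFinite _

theorem hopfX_jac (N : ℕ) [NeZero N] {r : ℕ} [Fact r.Prime] (hrN : ¬ r ∣ N)
    (k : ℕ) [NeZero (r ^ k)] {ε : AddMonoid.End (JZero N)}
    (comm : ∀ (σ : GQ) (x : JZero N), ε (actJ N σ x) = actJ N σ (ε x))
    (idem : ∀ x : JZero N, r ^ k • x = 0 → ε (ε x) = ε x) (z0 : JZero N)
    (hz0 : ∀ σ : GQ, actJ N σ (r ^ k • z0) = r ^ k • z0) :
    ∃ H : Subalgebra (Zl r) ((epsTors (r ^ k) ε × ZMod (r ^ k)) → Qb),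
      IsHopfOrder r (extAct (r ^ k) (epsAct comm) (epsCoc idem hz0) nsmul_epsTors
        (epsCoc_mul comm idem hz0)) H := by
  have hfinV : Finite (epsTors (r ^ k) ε) :=
    ((fin_jac N (r ^ k) (NeZero.ne _)).subset
      (fun x (hx : x ∈ epsTors (r ^ k) ε) => hx.1)).to_subtype
  exact exists_isHopfOrder_of_section hrN (C := ZMod (r ^ k)) _
    (AddMonoidHom.snd (epsTors (r ^ k) ε) (ZMod (r ^ k))) (fun σ x => rfl)
    (secX ε (r ^ k) z0) (fun σ x => secX_act comm idem hz0 σ x)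
    (fun x x' h1 h2 => secX_inj z0 x x' h1 h2)
    (carryX ε (r ^ k) z0) (fun x x' => secX_add z0 x x')

theorem hopfS_jac (N : ℕ) [NeZero N] {r : ℕ} [Fact r.Prime] (hrN : ¬ r ∣ N)
    (k : ℕ) (S : AddSubgroup (JZero N))
    (S_tors : ∀ s ∈ S, r ^ k • s = 0) (S_stable : ∀ σ : GQ, ∀ s ∈ S, actJ N σ s ∈ S) :
    ∃ H : Subalgebra (Zl r) (S → Qb), IsHopfOrder r (subAct (actJ N) S S_stable) H := by
  have hrk : r ^ k ≠ 0 := pow_ne_zero _ (Fact.out : r.Prime).ne_zero
  have hfinS : Finite S :=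
    ((fin_jac N (r ^ k) hrk).subset (fun x (hx : x ∈ S) => S_tors x hx)).to_subtype
  exact exists_isHopfOrder_of_section hrN (C := Unit) _ 0 (fun σ x => rfl)
    (fun x => (x : JZero N)) (fun σ x => rfl) (fun x x' _ h => Subtype.ext h)
    (fun _ _ => 0) (fun x x' => (add_zero _).symm)

end Fermat.Agent.MAZ
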