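import Fermat.Agent.FFG.Core

/-!
# MAZ / Hopf / [FIB] : the canonical order of a *fibred* family of divisor classes

`X` a finite abelian group, `π : X →+ C`, `y : X → Div⁰` a family which is injective modulo principal divisors **on each
fibre of `π`** and additive modulo principal divisors **up to constants depending only on the fibres**:
`y x + y x' ∼ y (x + x') + c (π x) (π x')`.

`fibOrd R r π y := {φ | ∀ m, φ|π⁻¹(m) ∈ HA R r (y|π⁻¹(m))}` (product of the canonical orders of the fibres).

RESULT (`fib_core`): `fibOrd` is an order, closed under comultiplication, generated by finitely^W functions equivariant under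
every `γ ∈ II`.  (`C = 0` : `FFG.core`.  `C = ℤ/r^k`, `X = V × ℤ/r^k`, `y (v, m) = v + m z₀`, `c = ` carry `· r^k z₀` :
the `r^k`-torsion of the 1-motive `[ℤ → J, 1 ↦ r^k z₀]`.)

## Paper proofs
Notation `X_m = {x // π x = m}`, `y_m = y ∘ val`, `H_m = HA R r y_m` (an order by `isOrd_HA`, `y_m` is injective).
* `extZ m a` = extension by zero of `a : X_m → K`.  Its restriction to `X_m` is `a`, to `X_m'` (`m' ≠ m`) is `0`.
  So `a ∈ H_m → extZ m a ∈ fibOrd`.  `φ = ∑_{m ∈ image π} extZ m (φ|X_m)`.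
* `isOrd_fibOrd` : `const`, `int` fibrewise.  `cond`: only the finitely many `m ∈ range π` matter (`X_m` empty otherwise and all
  functions on an empty type are equal, e.g. to `0 ∈ H_m`); `π₀ := ∏_{x : X} π_{π x}` (product of the conductors, each in `A`
  after replacing... NOTE a conductor `π_m` need not lie in `A`; use instead: `δ_x`-trick: it is enough to have for each `x` a nonzero
  `π_x` with `π_x δ_x ∈ fibOrd` and `π_x ∈ A`: from `cond` of `H_{π x}` applied to `δ_x`, `π_m δ_x ∈ H_m` forces `π_m = (π_m δ_x) x ∈ A` by `int`;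
  then `∏_x π_x · φ = ∑_x (φ x · ∏_{x' ≠ x} π_x') · (π_x δ_x)`.)
* `fibOrd_comul` : `Φ p = φ (p.1 + p.2) = ∑_{m, m'} 1_m(p.1) 1_m'(p.2) Φ p`.  For fixed `(m, m')`, `μ : X_m × X_m' → X_{m+m'}`;
  `y₃ w := y w + c m m'` on `X_{m+m'}`; `HA_translate` (`y₁ = y₃`, `y₂ = y_{m+m'}`, `C = - c m m'`, `ν = id`) : `φ|X_{m+m'} ∈ HA y₃`;
  `HA_add` (`y₁ = y_m`, `y₂ = y_m'`, `y₃`) : `φ ∘ μ ∈ prodOrd H_m H_m'`, `= ∑ a_i ⊗ b_i` (`mem_prodOrd_iff`); then
  `1_m ⊗ 1_m' · Φ = ∑ extZ m a_i ⊗ extZ m' b_i`.
* `fibOrd_eq_genOrd` : `𝒢 := ⋃_m extZ m '' (𝒢_m ∪ {1})`, `𝒢_m` from `HA_eq_genOrd_fixed` for `y_m`.  `extZ m` is additive, multiplicative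
  (non unital), `extZ m (const a) = const a * extZ m 1`.  Equivariance: `a : X → X` with `π (a x) = π x` restricts to `a_m : X_m → X_m`.
-/

set_option autoImplicit false
set_option linter.unusedSectionVars false

open AlgebraicCurve

namespace Fermat.Agent.MAZ

open Fermat.Agent.RED Fermat.Agent.S24 Fermat.Agent.FFG

noncomputable section

variable {K F k Fb : Type*} [Field K] [Field F] [Algebra K F] [Field k] [Field Fb] [Algebra k Fb]

/-- the product of the canonical orders of the fibres of `π`. -/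
def fibOrd (R : RedData K F k Fb) (r : Place K F → Place k Fb) {X C : Type*} (π : X → C)
    (y : X → Divisor K F) : Subring (X → K) :=
  ⨅ m : C, (HA R r (fun x : {x // π x = m} => y x)).comap (compHom Subtype.val)

theorem mem_fibOrd {R : RedData K F k Fb} {r : Place K F → Place k Fb} {X C : Type*} {π : X → C}
    {y : X → Divisor K F} {φ : X → K} :
    φ ∈ fibOrd R r π y ↔
      ∀ m : C, (fun x : {x // π x = m} => φ x) ∈ HA R r (fun x : {x // π x = m} => y x) := by
  simp only [fibOrd, Subring.mem_iInf, Subring.mem_comap]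
  rfl

open Classical in
/-- extension by zero of a function on the fibre `π⁻¹ m`. -/
def extZ {X C : Type*} (π : X → C) (m : C) (a : {x // π x = m} → K) : X → K :=
  fun x => if h : π x = m then a ⟨x, h⟩ else 0

namespace FibAux

variable {X C : Type*}

theorem extZ_of_eq (π : X → C) (m : C) (a : {x // π x = m} → K) {x : X} (h : π x = m) :
    extZ π m a x = a ⟨x, h⟩ := by
  unfold extZ
  rw [dif_pos h]

theorem extZ_of_ne (π : X → C) (m : C) (a : {x // π x = m} → K) {x : X} (h : π x ≠ m) :
    extZ π m a x = 0 := by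
  unfold extZ
  rw [dif_neg h]

theorem extZ_zero (π : X → C) (m : C) : extZ π m (0 : {x // π x = m} → K) = 0 := by
  funext x
  by_cases h : π x = m
  · rw [extZ_of_eq π m _ h]; rfl
  · rw [extZ_of_ne π m _ h]; rfl

theorem extZ_add (π : X → C) (m : C) (a b : {x // π x = m} → K) :
    extZ π m (a + b) = extZ π m a + extZ π m b := by
  funext x
  by_cases h : π x = m
  · rw [Pi.add_apply, extZ_of_eq π m _ h, extZ_of_eq π m _ h, extZ_of_eq π m _ h]; rfl
  · rw [Pi.add_apply, extZ_of_ne π m _ h, extZ_of_ne π m _ h, extZ_of_ne π m _ h, add_zero]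

theorem extZ_neg (π : X → C) (m : C) (a : {x // π x = m} → K) :
    extZ π m (-a) = - extZ π m a := by
  funext x
  by_cases h : π x = m
  · rw [Pi.neg_apply, extZ_of_eq π m _ h, extZ_of_eq π m _ h]; rfl
  · rw [Pi.neg_apply, extZ_of_ne π m _ h, extZ_of_ne π m _ h, neg_zero]

theorem extZ_mul (π : X → C) (m : C) (a b : {x // π x = m} → K) :
    extZ π m (a * b) = extZ π m a * extZ π m b := by
  funext x
  by_cases h : π x = m
  · rw [Pi.mul_apply, extZ_of_eq π m _ h, extZ_of_eq π m _ h, extZ_of_eq π m _ h]; rfl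
  · rw [Pi.mul_apply, extZ_of_ne π m _ h, extZ_of_ne π m _ h, extZ_of_ne π m _ h, mul_zero]

theorem extZ_const (π : X → C) (m : C) (c : K) :
    extZ π m (fun _ => c) = (fun _ => c) * extZ π m 1 := by
  funext x
  by_cases h : π x = m
  · rw [Pi.mul_apply, extZ_of_eq π m _ h, extZ_of_eq π m _ h, Pi.one_apply, mul_one]
  · rw [Pi.mul_apply, extZ_of_ne π m _ h, extZ_of_ne π m _ h, mul_zero]

open Classical in
theorem eq_sum_extZ [Fintype X] (π : X → C) (φ : X → K) :
    φ = ∑ m ∈ Finset.univ.image π, extZ π m (fun x : {x // π x = m} => φ x) := by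
  funext x
  rw [Finset.sum_apply, Finset.sum_eq_single (π x)]
  · rw [extZ_of_eq π _ _ rfl]
  · intro m _ hm
    exact extZ_of_ne π m _ (Ne.symm hm)
  · intro h
    exact absurd (Finset.mem_image_of_mem π (Finset.mem_univ x)) h

end FibAux

open FibAux

variable [IsAlgClosed K] [IsAlgClosed k]
variable {R : RedData K F k Fb} {r : Place K F → Place k Fb}
variable {X C : Type*} [Finite X]

theorem extZ_mem_fibOrd (π : X → C) (y : X → Divisor K F) (m : C) {a : {x // π x = m} → K}
    (ha : a ∈ HA R r (fun x : {x // π x = m} => y x)) : extZ π m a ∈ fibOrd R r π y := by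
  rw [mem_fibOrd]
  intro m'
  by_cases h : m' = m
  · subst h
    have : (fun x : {x // π x = m'} => extZ π m' a x) = a := by
      funext x
      rw [extZ_of_eq π m' a x.2]
    rw [this]
    exact ha
  · have : (fun x : {x // π x = m'} => extZ π m a x) = 0 := by
      funext x
      rw [extZ_of_ne π m a (by rw [x.2]; exact h)]
      rfl
    rw [this]
    exact Subring.zero_mem _

theorem isOrd_fibOrd (G : Good R r) (π : X → C) {y : X → Divisor K F}
    (hy : ∀ x, Divisor.degree (y x) = 0)
    (hinj : ∀ x x', π x = π x' → Divisor.IsPrincipal (y x - y x') → x = x') :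
    IsOrd (constRing R) (fibOrd R r π y) := by
  classical
  have hH : ∀ m : C, IsOrd (constRing R) (HA R r (fun x : {x // π x = m} => y x)) := fun m =>
    isOrd_HA G (fun x => hy x) (fun x x' h => Subtype.ext (hinj x x' (x.2.trans x'.2.symm) h))
  refine ⟨fun a ha => ?_, fun φ hφ z => ?_, ?_⟩
  · rw [mem_fibOrd]
    exact fun m => (hH m).const a ha
  · rw [mem_fibOrd] at hφ
    exact (hH (π z)).int _ (hφ (π z)) ⟨z, rfl⟩
  · have := Fintype.ofFinite X
    choose c hc0 hc using fun m => (hH m).cond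
    have hcA : ∀ x : X, c (π x) ∈ constRing R := by
      intro x
      have h1 := hc (π x) (fun _ => 1) (fun _ => (constRing R).one_mem)
      have h2 := (hH (π x)).int _ h1 ⟨x, rfl⟩
      simpa using h2
    refine ⟨∏ x : X, c (π x), Finset.prod_ne_zero_iff.2 fun x _ => hc0 (π x), fun φ hφ => ?_⟩
    rw [mem_fibOrd]
    intro m
    rcases isEmpty_or_nonempty {x // π x = m} with hE | ⟨⟨x₀, hx₀⟩⟩
    · have : (fun x : {x // π x = m} => (∏ x : X, c (π x)) * φ x) = 0 := by
        funext x
        exact hE.elim x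
      rw [this]
      exact Subring.zero_mem _
    · have h1 : (∏ x : X, c (π x)) = c m * ∏ x ∈ Finset.univ.erase x₀, c (π x) := by
        rw [← hx₀]
        exact (Finset.mul_prod_erase Finset.univ (fun x => c (π x)) (Finset.mem_univ x₀)).symm
      have h2 : (∏ x ∈ Finset.univ.erase x₀, c (π x)) ∈ constRing R :=
        prod_mem fun x _ => hcA x
      have h3 := hc m (fun x => (∏ x ∈ Finset.univ.erase x₀, c (π x)) * φ x)
        (fun x => mul_mem h2 (hφ x))
      have h4 : (fun x : {x // π x = m} => (∏ x : X, c (π x)) * φ x) =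
          fun x : {x // π x = m} => c m * ((∏ x ∈ Finset.univ.erase x₀, c (π x)) * φ x) := by
        funext x
        rw [h1, mul_assoc]
      rw [h4]
      exact h3

theorem fibOrd_comul (G : Good R r) [AddCommGroup X] [AddCommGroup C] (π : X →+ C)
    {y : X → Divisor K F} (hy : ∀ x, Divisor.degree (y x) = 0)
    (hinj : ∀ x x', π x = π x' → Divisor.IsPrincipal (y x - y x') → x = x')
    (c : C → C → Divisor K F) (hc : ∀ m m', Divisor.degree (c m m') = 0)
    (hadd : ∀ x x', Divisor.IsPrincipal (y x + y x' - y (x + x') - c (π x) (π x'))) :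
    ∀ φ ∈ fibOrd R r π y,
      (fun p : X × X => φ (p.1 + p.2)) ∈ prodOrd (fibOrd R r π y) (fibOrd R r π y) := by
  classical
  intro φ hφ
  have := Fintype.ofFinite X
  set S := fibOrd R r π y with hS
  -- the piece over `(m, m')`
  have piece : ∀ m m' : C, (fun p : X × X => if π p.1 = m ∧ π p.2 = m' then φ (p.1 + p.2) else 0) ∈
      prodOrd S S := by
    intro m m'
    have hφ3 : (fun w : {x // π x = m + m'} => φ w) ∈
        HA R r (fun w : {x // π x = m + m'} => y w + c m m') := by
      refine HA_translate G (Z₁ := {x // π x = m + m'}) (Z₂ := {x // π x = m + m'})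
        (y₁ := fun w => y w + c m m') (y₂ := fun w => y w)
        (fun w => by rw [map_add, hy, hc, add_zero]) (fun w => hy w)
        (fun w w' h => Subtype.ext (hinj w w' (w.2.trans w'.2.symm) (by
          have e : y w + c m m' - (y w' + c m m') = y w - y w' := by abel
          rwa [e] at h)))
        (- c m m') (by rw [map_neg, hc, neg_zero]) id (fun w => by
          have e : y w + c m m' + - c m m' - y w = 0 := by abel
          show Divisor.IsPrincipal (y w + c m m' + - c m m' - y w)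
          rw [e]
          exact (Divisor.principal (K := K) (F := F)).zero_mem) _ (mem_fibOrd.1 hφ (m + m'))
    have hadd' := HA_add G (Z₁ := {x // π x = m}) (Z₂ := {x // π x = m'}) (Z₃ := {x // π x = m + m'})
      (y₁ := fun w => y w) (y₂ := fun w => y w) (y₃ := fun w => y w + c m m')
      (fun w => hy w) (fun w => hy w) (fun w => by rw [map_add, hy, hc, add_zero])
      (fun w w' h => Subtype.ext (hinj w w' (w.2.trans w'.2.symm) h))
      (fun w w' h => Subtype.ext (hinj w w' (w.2.trans w'.2.symm) h))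
      (fun p => ⟨p.1 + p.2, by rw [map_add, p.1.2, p.2.2]⟩)
      (fun p => by
        have h := hadd p.1 p.2
        rw [p.1.2, p.2.2] at h
        have e : y p.1 + y p.2 - (y (p.1 + p.2 : X) + c m m') =
            y p.1 + y p.2 - y (p.1 + p.2 : X) - c m m' := by abel
        rw [e]
        exact h) _ hφ3
    obtain ⟨n, a, b, ha, hb, hab⟩ := mem_prodOrd_iff.1 hadd'
    refine mem_prodOrd_iff.2 ⟨n, fun i => extZ π m (a i), fun i => extZ π m' (b i),
      fun i => extZ_mem_fibOrd π y m (ha i), fun i => extZ_mem_fibOrd π y m' (hb i), fun p => ?_⟩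
    by_cases h1 : π p.1 = m
    · by_cases h2 : π p.2 = m'
      · rw [if_pos ⟨h1, h2⟩]
        have := hab (⟨p.1, h1⟩, ⟨p.2, h2⟩)
        simp only [extZ, dif_pos h1, dif_pos h2]
        exact this
      · rw [if_neg (fun h => h2 h.2)]
        simp [extZ, dif_neg h2]
    · rw [if_neg (fun h => h1 h.1)]
      simp [extZ, dif_neg h1]
  have hsum : (fun p : X × X => φ (p.1 + p.2)) =
      ∑ m ∈ Finset.univ.image π, ∑ m' ∈ Finset.univ.image π,
        fun p : X × X => if π p.1 = m ∧ π p.2 = m' then φ (p.1 + p.2) else 0 := by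
    funext p
    simp only [Finset.sum_apply]
    rw [Finset.sum_eq_single (π p.1), Finset.sum_eq_single (π p.2)]
    · simp
    · intro m' _ hm'
      rw [if_neg (fun h => hm' h.2.symm)]
    · intro h
      exact absurd (Finset.mem_image_of_mem π (Finset.mem_univ p.2)) h
    · intro m _ hm
      exact Finset.sum_eq_zero fun m' _ => if_neg (fun h => hm h.1.symm)
    · intro h
      exact absurd (Finset.mem_image_of_mem π (Finset.mem_univ p.1)) h
  rw [hsum]
  exact Subring.sum_mem _ fun m _ => Subring.sum_mem _ fun m' _ => piece m m'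

theorem fibOrd_eq_genOrd (G : Good R r) (II : Set (SemilinearAut K F))
    (hr : ∀ γ ∈ II, ∀ P, r (γ • P) = r P)
    (hpar : ∃ B : Set (Place k Fb), B.Finite ∧ ∀ Q, Q ∉ B →
      ∃ T : F, IsLocalParam R.O R.red r Q T ∧ ∀ γ ∈ II, γ • T = T)
    (π : X → C) {y : X → Divisor K F} (hy : ∀ x, Divisor.degree (y x) = 0)
    (hinj : ∀ x x', π x = π x' → Divisor.IsPrincipal (y x - y x') → x = x') :
    ∃ 𝒢 : Set (X → K), fibOrd R r π y = genOrd (constRing R) 𝒢 ∧
      ∀ φ ∈ 𝒢, ∀ γ ∈ II, ∀ a : X → X, (∀ x, π (a x) = π x) →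
        (∀ x, Divisor.IsPrincipal (y (a x) - γ • y x)) →
        ∀ x, φ (a x) = SemilinearAut.baseAut γ (φ x) := by
  classical
  have := Fintype.ofFinite X
  choose 𝒢 h𝒢fin h𝒢 h𝒢eq using fun m : C =>
    HA_eq_genOrd_fixed G II hr hpar (y := fun x : {x // π x = m} => y x) (fun x => hy x)
      (fun x x' h => Subtype.ext (hinj x x' (x.2.trans x'.2.symm) h))
  refine ⟨{φ | ∃ m : C, ∃ g, (g ∈ 𝒢 m ∨ g = 1) ∧ φ = extZ π m g}, le_antisymm ?_ ?_, ?_⟩
  · -- `fibOrd ≤ genOrd`
    intro φ hφ
    rw [mem_fibOrd] at hφ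
    have key : ∀ m : C, ∀ a ∈ HA R r (fun x : {x // π x = m} => y x),
        extZ π m a ∈ genOrd (constRing R)
          {φ | ∃ m : C, ∃ g, (g ∈ 𝒢 m ∨ g = 1) ∧ φ = extZ π m g} := by
      intro m a ha
      have h1 : extZ π m (1 : {x // π x = m} → K) ∈ genOrd (constRing R)
          {φ | ∃ m : C, ∃ g, (g ∈ 𝒢 m ∨ g = 1) ∧ φ = extZ π m g} :=
        Subring.subset_closure (Or.inr ⟨m, 1, Or.inr rfl, rfl⟩)
      rw [h𝒢 m] at ha
      induction ha using Subring.closure_induction with
      | mem x hx =>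
        rcases hx with ⟨c, hc, rfl⟩ | hx
        · rw [extZ_const]
          exact Subring.mul_mem _ (Subring.subset_closure (Or.inl ⟨c, hc, rfl⟩)) h1
        · exact Subring.subset_closure (Or.inr ⟨m, x, Or.inl hx, rfl⟩)
      | zero => rw [extZ_zero]; exact Subring.zero_mem _
      | one => exact h1
      | add x y _ _ hx hy => rw [extZ_add]; exact Subring.add_mem _ hx hy
      | neg x _ hx => rw [extZ_neg]; exact Subring.neg_mem _ hx
      | mul x y _ _ hx hy => rw [extZ_mul]; exact Subring.mul_mem _ hx hy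
    rw [eq_sum_extZ π φ]
    exact Subring.sum_mem _ fun m _ => key m _ (hφ m)
  · -- `genOrd ≤ fibOrd`
    refine Subring.closure_le.2 ?_
    rintro φ (⟨c, hc, rfl⟩ | ⟨m, g, hg, rfl⟩)
    · exact (isOrd_fibOrd G π hy hinj).const c hc
    · refine extZ_mem_fibOrd π y m ?_
      rcases hg with hg | rfl
      · rw [h𝒢 m]
        exact Subring.subset_closure (Or.inr hg)
      · exact Subring.one_mem _
  · rintro φ ⟨m, g, hg, rfl⟩ γ hγ a ha hprin x
    by_cases h : π x = m
    · have h' : π (a x) = m := (ha x).trans h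
      rw [extZ_of_eq π m g h, extZ_of_eq π m g h']
      rcases hg with hg | rfl
      · exact h𝒢eq m g hg γ hγ (fun z => ⟨a z.1, (ha z.1).trans z.2⟩) (fun z => hprin z.1) ⟨x, h⟩
      · rw [Pi.one_apply, Pi.one_apply, map_one]
    · have h' : π (a x) ≠ m := fun hh => h ((ha x).symm.trans hh)
      rw [extZ_of_ne π m g h, extZ_of_ne π m g h', map_zero]

/-- **[FIB]** the general core. -/
theorem fib_core (G : Good R r) (II : Set (SemilinearAut K F))
    (hr : ∀ γ ∈ II, ∀ P, r (γ • P) = r P)
    (hpar : ∃ B : Set (Place k Fb), B.Finite ∧ ∀ Q, Q ∉ B →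
      ∃ T : F, IsLocalParam R.O R.red r Q T ∧ ∀ γ ∈ II, γ • T = T)
    [AddCommGroup X] [AddCommGroup C] (π : X →+ C)
    {y : X → Divisor K F} (hy : ∀ x, Divisor.degree (y x) = 0)
    (hinj : ∀ x x', π x = π x' → Divisor.IsPrincipal (y x - y x') → x = x')
    (c : C → C → Divisor K F) (hc : ∀ m m', Divisor.degree (c m m') = 0)
    (hadd : ∀ x x', Divisor.IsPrincipal (y x + y x' - y (x + x') - c (π x) (π x'))) :
    ∃ S : Subring (X → K), IsOrd (constRing R) S ∧
      (∀ φ ∈ S, (fun p : X × X => φ (p.1 + p.2)) ∈ prodOrd S S) ∧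
      ∃ 𝒢 : Set (X → K), S = genOrd (constRing R) 𝒢 ∧
        ∀ φ ∈ 𝒢, ∀ γ ∈ II, ∀ a : X → X, (∀ x, π (a x) = π x) →
          (∀ x, Divisor.IsPrincipal (y (a x) - γ • y x)) →
          ∀ x, φ (a x) = SemilinearAut.baseAut γ (φ x) :=
  ⟨fibOrd R r π y, isOrd_fibOrd G π hy hinj, fibOrd_comul G π hy hinj c hc hadd,
    fibOrd_eq_genOrd G II hr hpar π hy hinj⟩

end

end Fermat.Agent.MAZ
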